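/-
Programme TW (S56), sub-programme C2 (tail of Poitou–Tate, helper44), brick C2-NZ (helper94).

`NZLoc94.Group`: the group-theoretic half of (NZ) "norms from deep levels vanish".

If `p` kills `M`, `V ≤ W` are subgroups of `G` with `V` of finite index and `p ∣ [W : V]`, then the
norm `N_{G/V}` vanishes on the `W`-fixed vectors of `M`.
-/
import Mathlib
import Fermat.Agent.PT.PRO.GlobalDuality20

set_option autoImplicit false

namespace Fermat.Agent.TW.NZLoc94.Group

open Fermat.Agent.PT.PRO.GlobalDuality20

variable {k : Type*} [CommRing k] {G : Type*} [Group G]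
variable {M : Type*} [AddCommGroup M] [Module k M]

/-- `n • m = 0` as soon as `p ∣ n` and `p` kills `m`. -/
lemma nsmul_eq_zero_of_dvd {p n : ℕ} (h : p ∣ n) {m : M} (hm : (p : k) • m = 0) : n • m = 0 := by
  obtain ⟨c, rfl⟩ := h
  rw [mul_comm, mul_smul, ← Nat.cast_smul_eq_nsmul k p m, hm, smul_zero]

/-- The value `ρ (out x) a` only depends on the image of `x` in `G ⧸ W` when `a` is `W`-fixed. -/
lemma rho_out_eq_of_fixedBy (ρ : Representation k G M) {W : Subgroup G} {a : M}
    (ha : FixedBy ρ W a) {g h : G} (hgh : g⁻¹ * h ∈ W) : ρ h a = ρ g a := by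
  have : h = g * (g⁻¹ * h) := by group
  rw [this, map_mul, Module.End.mul_apply, ha _ hgh]

/-- **Norms from deep levels vanish**: if `p` kills `M`, `V ≤ W`, `V` has finite index in `G` and
`p ∣ [W : V]`, then `N_{G/V} a = 0` for every `W`-fixed `a`. -/
theorem nrm_eq_zero_of_dvd_relIndex (ρ : Representation k G M) {p : ℕ}
    (hp : ∀ m : M, (p : k) • m = 0) {V W : Subgroup G} (hVW : V ≤ W) [V.FiniteIndex]
    (hdvd : p ∣ V.relIndex W) {a : M} (ha : FixedBy ρ W a) : nrm ρ V a = 0 := by
  classical
  have : Finite (G ⧸ V) := Subgroup.finite_quotient_of_finiteIndex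
  have : W.FiniteIndex := Subgroup.finiteIndex_of_le hVW
  have : Finite (G ⧸ W) := Subgroup.finite_quotient_of_finiteIndex
  have : Finite (W ⧸ V.subgroupOf W) := by
    have : (V.subgroupOf W).FiniteIndex := inferInstance
    exact Subgroup.finite_quotient_of_finiteIndex
  cases nonempty_fintype (G ⧸ V)
  cases nonempty_fintype (G ⧸ W)
  cases nonempty_fintype (W ⧸ V.subgroupOf W)
  -- the value depends only on the `W`-coset
  have key : ∀ x : G ⧸ V, ρ (Quotient.out x) a =
      ρ (Quotient.out (QuotientGroup.mk (s := W) (Quotient.out x))) a := by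
    intro x
    apply rho_out_eq_of_fixedBy ρ ha
    rw [← QuotientGroup.eq]
    exact QuotientGroup.out_eq' _
  unfold nrm
  rw [finsum_eq_sum_of_fintype]
  -- group the sum along `G ⧸ V → G ⧸ W`
  let π : G ⧸ V → G ⧸ W := fun x => QuotientGroup.mk (s := W) (Quotient.out x)
  have hfib : ∀ y : G ⧸ W, (Finset.univ.filter fun x : G ⧸ V => π x = y).card = V.relIndex W := by
    intro y
    let e := Subgroup.quotientEquivProdOfLE hVW
    have hπ : ∀ x : G ⧸ V, π x = (e x).1 := by
      intro x
      induction x using Quotient.inductionOn' with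
      | h g =>
        show (QuotientGroup.mk (s := W) (Quotient.out (QuotientGroup.mk (s := V) g)) : G ⧸ W) = _
        have h1 : (Quotient.out (QuotientGroup.mk (s := V) g))⁻¹ * g ∈ V := by
          rw [← QuotientGroup.eq]
          exact QuotientGroup.out_eq' _
        have h2 : (QuotientGroup.mk (s := W) (Quotient.out (QuotientGroup.mk (s := V) g)) : G ⧸ W) =
            QuotientGroup.mk (s := W) g := QuotientGroup.eq.2 (hVW h1)
        rw [h2]
        rfl
    have hcard : (Finset.univ.filter fun x : G ⧸ V => π x = y).card =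
        Fintype.card (W ⧸ V.subgroupOf W) := by
      rw [← Fintype.card_subtype]
      refine Fintype.card_congr ?_
      refine
        { toFun := fun x => (e x.1).2
          invFun := fun z => ⟨e.symm (y, z), by rw [hπ, Equiv.apply_symm_apply]⟩
          left_inv := fun x => by
            apply Subtype.ext
            show e.symm (y, (e x.1).2) = x.1
            have : (y, (e x.1).2) = e x.1 := Prod.ext (x.2.symm.trans (hπ x.1)) rfl
            rw [this, Equiv.symm_apply_apply]
          right_inv := fun z => by
            show (e (e.symm (y, z))).2 = z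
            rw [Equiv.apply_symm_apply] }
    rw [hcard, Subgroup.relIndex, Subgroup.index, Nat.card_eq_fintype_card]
  calc ∑ x : G ⧸ V, ρ (Quotient.out x) a
      = ∑ x : G ⧸ V, ρ (Quotient.out (π x)) a := Finset.sum_congr rfl fun x _ => key x
    _ = ∑ y : G ⧸ W, ∑ x ∈ Finset.univ.filter (fun x : G ⧸ V => π x = y),
          ρ (Quotient.out (π x)) a := by
        rw [Finset.sum_fiberwise]
    _ = ∑ y : G ⧸ W, (V.relIndex W) • ρ (Quotient.out y) a := by
        refine Finset.sum_congr rfl fun y _ => ?_
        rw [← hfib y, ← Finset.sum_const]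
        refine Finset.sum_congr rfl fun x hx => ?_
        rw [(Finset.mem_filter.1 hx).2]
    _ = 0 := by
        refine Finset.sum_eq_zero fun y _ => ?_
        exact nsmul_eq_zero_of_dvd hdvd (hp _)

end Fermat.Agent.TW.NZLoc94.Group
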