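/-
Programme TW (S56), sub-programme C2 (helper44), brick C2-NZ (helper94).

`NZLoc94.LocalBound`: a finite extension `E` of `ℚ_q` contains only finitely many roots of unity
of `p`-power order:  `∃ N, ∀ n ζ, IsPrimitiveRoot ζ (p ^ n) → n ≤ N`.

* `q ≠ p`: the `p^n` powers of `ζ` have pairwise distinct residues (`RootsUnity14`), so
  `p ^ n ≤ #(residue field)`;
* `q = p`: every `1 - μ` (`μ` a primitive `p^n`-th root of unity) is a non-unit and
  `∏ (1 - μ) = Φ_{p^n}(1) = p`, so `φ(p^n) ≤ ord_E(p)`.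
-/
import Mathlib
import Fermat.Agent.PT.LOC.Teichmuller14

set_option autoImplicit false

namespace Fermat.Agent.TW.NZLoc94.LocalBound

open scoped Fermat.Agent.PT.LOC.Interface12
open Fermat.Agent.PT.LOC.Interface12 Fermat.Agent.PT.LOC.Structure14
  Fermat.Agent.PT.LOC.StructureNorm14 Fermat.Agent.PT.LOC.RootsUnity14
  Fermat.Agent.PT.LOC.Teichmuller14 Polynomial

variable (q : ℕ) [Fact q.Prime] (E : Type) [Field E] [Algebra ℚ_[q] E] [FiniteDimensional ℚ_[q] E]

/-! ### The case `q ≠ p` -/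

/-- For `q ≠ p`, a primitive `p^n`-th root of unity in `E` forces `p ^ n ≤ #k_E`. -/
theorem pow_le_card_resField {p : ℕ} (hp : p.Prime) (hqp : q ≠ p) {n : ℕ} {ζ : E}
    (hζ : IsPrimitiveRoot ζ (p ^ n)) : p ^ n ≤ Nat.card (resField q E) := by
  classical
  have hq : q.Prime := Fact.out
  have hm : ¬ q ∣ p ^ n := fun h =>
    hqp ((Nat.prime_dvd_prime_iff_eq hq hp).1 (hq.dvd_of_dvd_pow h))
  have hm0 : p ^ n ≠ 0 := pow_ne_zero _ hp.ne_zero
  have hmem : ∀ i : ℕ, ζ ^ i ∈ intRing q E := fun i =>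
    mem_intRing_of_pow_eq_one q E hm0 (by rw [← pow_mul, mul_comm, pow_mul, hζ.pow_eq_one, one_pow])
  let f : Fin (p ^ n) → resField q E := fun i =>
    IsLocalRing.residue (intRing q E) ⟨ζ ^ (i : ℕ), hmem i⟩
  have hf : Function.Injective f := by
    intro i j hij
    have h1 : (⟨ζ ^ (i : ℕ), hmem i⟩ : intRing q E) - ⟨ζ ^ (j : ℕ), hmem j⟩ ∈
        IsLocalRing.maximalIdeal (intRing q E) := by
      rw [← Ideal.Quotient.eq]
      exact hij
    have h2 : (⟨ζ ^ (i : ℕ), hmem i⟩ : intRing q E) = ⟨ζ ^ (j : ℕ), hmem j⟩ := by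
      refine eq_of_sub_mem_maximalIdeal q E hm ?_ ?_ h1
      · apply Subtype.ext
        show (ζ ^ (i : ℕ)) ^ (p ^ n) = 1
        rw [← pow_mul, mul_comm, pow_mul, hζ.pow_eq_one, one_pow]
      · apply Subtype.ext
        show (ζ ^ (j : ℕ)) ^ (p ^ n) = 1
        rw [← pow_mul, mul_comm, pow_mul, hζ.pow_eq_one, one_pow]
    have h3 : ζ ^ (i : ℕ) = ζ ^ (j : ℕ) := congrArg Subtype.val h2
    exact Fin.ext (hζ.pow_inj i.2 j.2 h3)
  have := Nat.card_le_card_of_injective f hf
  simpa using this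

/-! ### The case `q = p` -/

/-- The residue field of `E` has characteristic `q`. -/
theorem charP_resField : CharP (resField q E) q := by
  have hq : q.Prime := Fact.out
  have h0 : ((q : ℕ) : resField q E) = 0 := by
    have hmem : (⟨(q : E), natCast_q_mem q E⟩ : intRing q E) ∈
        IsLocalRing.maximalIdeal (intRing q E) := by
      rw [mem_maximalIdeal_iff_snorm]
      show snorm q E (q : E) < 1
      rw [snorm_natCast_q]
      have : (1 : ℝ) < q := by exact_mod_cast hq.one_lt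
      exact inv_lt_one_of_one_lt₀ this
    have h1 : IsLocalRing.residue (intRing q E) ⟨(q : E), natCast_q_mem q E⟩ = 0 :=
      (IsLocalRing.residue_eq_zero_iff _).2 hmem
    have h2 : (⟨(q : E), natCast_q_mem q E⟩ : intRing q E) = ((q : ℕ) : intRing q E) := by
      apply Subtype.ext
      simp
    rw [h2, map_natCast] at h1
    exact h1
  have h := ringChar.charP (resField q E)
  rwa [CharP.ringChar_of_prime_eq_zero hq h0] at h

/-- A `q`-power root of unity is congruent to `1` modulo the maximal ideal. -/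
theorem snorm_one_sub_lt_one {n : ℕ} {μ : E} (hμ : μ ^ (q ^ n) = 1) : snorm q E (1 - μ) < 1 := by
  have hq : q.Prime := Fact.out
  have := charP_resField q E
  have hm0 : q ^ n ≠ 0 := pow_ne_zero _ hq.ne_zero
  have hμmem : μ ∈ intRing q E := mem_intRing_of_pow_eq_one q E hm0 hμ
  set x : intRing q E := ⟨μ, hμmem⟩ with hx
  have hxpow : x ^ (q ^ n) = 1 := by
    apply Subtype.ext
    show μ ^ (q ^ n) = 1
    exact hμ
  have hres : IsLocalRing.residue (intRing q E) (1 - x) = 0 := by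
    have h1 : (IsLocalRing.residue (intRing q E) (1 - x)) ^ (q ^ n) = 0 := by
      rw [map_sub, map_one, sub_pow_char_pow, one_pow, ← map_pow, hxpow, map_one, sub_self]
    exact pow_eq_zero_iff hm0 |>.1 h1
  have hmem : (1 - x) ∈ IsLocalRing.maximalIdeal (intRing q E) :=
    (IsLocalRing.residue_eq_zero_iff _).1 hres
  rw [mem_maximalIdeal_iff_snorm] at hmem
  exact hmem

/-- If `E ∋ ζ` primitive of order `q^n` (`n ≥ 1`), then `‖q‖ ≤ ‖π‖ ^ φ(q^n)`. -/
theorem snorm_q_le {n : ℕ} (hn : n ≠ 0) {ζ : E} (hζ : IsPrimitiveRoot ζ (q ^ n)) (π : E)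
    (hπ : IsUniformizer q E π) :
    snorm q E (q : E) ≤ snorm q E π ^ (Nat.totient (q ^ n)) := by
  classical
  have hq : q.Prime := Fact.out
  obtain ⟨k, rfl⟩ := Nat.exists_eq_succ_of_ne_zero hn
  have hprod : (∏ μ ∈ primitiveRoots (q ^ (k + 1)) E, (1 - μ)) = (q : E) := by
    have h1 := Polynomial.cyclotomic_eq_prod_X_sub_primitiveRoots (K := E) hζ
    have h2 := congrArg (Polynomial.eval 1) h1
    rw [Polynomial.eval_one_cyclotomic_prime_pow, Polynomial.eval_prod] at h2
    rw [h2]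
    refine Finset.prod_congr rfl fun μ _ => ?_
    simp
  have hcard : (primitiveRoots (q ^ (k + 1)) E).card = Nat.totient (q ^ (k + 1)) :=
    hζ.card_primitiveRoots
  have hsn : snorm q E (∏ μ ∈ primitiveRoots (q ^ (k + 1)) E, (1 - μ)) =
      ∏ μ ∈ primitiveRoots (q ^ (k + 1)) E, snorm q E (1 - μ) := by
    refine Finset.induction_on (primitiveRoots (q ^ (k + 1)) E) ?_ ?_
    · simp [snorm_one]
    · intro a s ha ih
      rw [Finset.prod_insert ha, Finset.prod_insert ha, snorm_mul, ih]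
  rw [← hprod, hsn, ← hcard, ← Finset.prod_const]
  refine Finset.prod_le_prod (fun μ _ => snorm_nonneg q E _) fun μ hμ => ?_
  have hμ' : IsPrimitiveRoot μ (q ^ (k + 1)) :=
    (mem_primitiveRoots (pow_pos hq.pos _)).1 hμ
  exact (snorm_lt_one_iff_le_uniformizer q E π hπ _).1
    (snorm_one_sub_lt_one q E hμ'.pow_eq_one)

/-! ### The bound -/

include q in
/-- **A `q`-adic field contains only finitely many `p`-power roots of unity.** -/
theorem exists_bound_primitiveRoot {p : ℕ} (hp : p.Prime) :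
    ∃ N : ℕ, ∀ (n : ℕ) (ζ : E), IsPrimitiveRoot ζ (p ^ n) → n ≤ N := by
  have hq : q.Prime := Fact.out
  by_cases hqp : q = p
  · subst hqp
    obtain ⟨π, hπ⟩ := exists_isUniformizer q E
    have hπ0 : 0 < snorm q E (π : E) := snorm_pos q E π.ne_zero
    have hπ1 : snorm q E (π : E) < 1 := snorm_uniformizer_lt_one q E _ hπ
    have hq0 : 0 < snorm q E (q : E) := by
      rw [snorm_natCast_q]
      have : (0 : ℝ) < q := by exact_mod_cast hq.pos
      positivity
    obtain ⟨N, hN⟩ := exists_pow_lt_of_lt_one hq0 hπ1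
    refine ⟨N, fun n ζ hζ => ?_⟩
    by_contra hlt
    push Not at hlt
    have hn : n ≠ 0 := by omega
    have h1 := snorm_q_le q E hn hζ π hπ
    -- `n ≤ φ(q^n)`
    have h2 : n ≤ Nat.totient (q ^ n) := by
      obtain ⟨k, rfl⟩ := Nat.exists_eq_succ_of_ne_zero hn
      rw [Nat.totient_prime_pow_succ hq]
      have h3 : k + 1 ≤ q ^ k := by
        have := Nat.lt_pow_self (n := k) hq.one_lt
        omega
      have h4 : 1 ≤ q - 1 := by have := hq.two_le; omega
      calc k + 1 ≤ q ^ k := h3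
        _ = q ^ k * 1 := (mul_one _).symm
        _ ≤ q ^ k * (q - 1) := Nat.mul_le_mul_left _ h4
    have h5 : snorm q E (π : E) ^ (Nat.totient (q ^ n)) ≤ snorm q E (π : E) ^ N :=
      pow_le_pow_of_le_one hπ0.le hπ1.le (by omega)
    linarith
  · refine ⟨Nat.card (resField q E), fun n ζ hζ => ?_⟩
    have h1 := pow_le_card_resField q E hp hqp hζ
    have h2 : n < p ^ n := Nat.lt_pow_self hp.one_lt
    omega

end Fermat.Agent.TW.NZLoc94.LocalBound
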