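/-
Programme TW (S56), sub-programme C2 (helper44), brick C2-NZ (helper94).

`NZLoc94.Unram`: the `p`-power cyclotomic fields are unramified outside `p`.

* `eq_one_of_pow_eq_one` : in a valuation ring in which `p` is a unit, a `p^n`-th root of unity
  congruent to `1` modulo the maximal ideal is `1`.
* `apply_eq_of_mem_inertia` : inertia at `q ≠ p` fixes every `p^n`-th root of unity of `ℚ̄`.
* `isUnramifiedOutside_adjoin` : `ℚ(ζ)` is unramified outside any `S ∋ p`, for `ζ^(p^n) = 1`
  (the prelude's `IntermediateField.IsUnramifiedOutside`).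
-/
import Mathlib
import Fermat.Prelude.Def_GroupCohomology_ContinuousUnramified
import Fermat.Agent.S05.Inertia

set_option autoImplicit false

namespace Fermat.Agent.TW.NZLoc94.Unram

open ExtCitation

local notation "Qbar" => AlgebraicClosure ℚ
local notation "Γℚ" => (AlgebraicClosure ℚ ≃ₐ[ℚ] AlgebraicClosure ℚ)

/-- In a valuation ring in which the prime `p` is a unit, a `p^n`-th root of unity congruent to `1`
modulo the maximal ideal equals `1`. -/
theorem eq_one_of_pow_eq_one {L : Type*} [Field L] (A : ValuationSubring L) {p : ℕ}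
    (hvp : A.valuation (p : L) = 1) :
    ∀ (n : ℕ) (η : L), η ∈ A → η ^ (p ^ n) = 1 → A.valuation (η - 1) < 1 → η = 1 := by
  -- `v(η^k - 1) < 1` for all `k`
  have hvk : ∀ (η : L), η ∈ A → A.valuation (η - 1) < 1 → ∀ k : ℕ, A.valuation (η ^ k - 1) < 1 := by
    intro η hηA hv1 k
    rw [← geom_sum_mul, map_mul]
    have h3 : A.valuation (∑ i ∈ Finset.range k, η ^ i) ≤ 1 :=
      (A.valuation_le_one_iff _).2 (sum_mem fun i _ => pow_mem hηA i)
    calc A.valuation (∑ i ∈ Finset.range k, η ^ i) * A.valuation (η - 1)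
        ≤ 1 * A.valuation (η - 1) := mul_le_mul_left h3 _
      _ < 1 := by rw [one_mul]; exact hv1
  intro n
  induction n with
  | zero =>
    intro η _ h _
    simpa using h
  | succ n ih =>
    intro η hηA hpow hv1
    have hηp : η ^ p = 1 := by
      apply ih (η ^ p) (pow_mem hηA p)
      · rw [← pow_mul, ← pow_succ']; exact hpow
      · exact hvk η hηA hv1 p
    by_contra hη1
    have hgeom : ∑ i ∈ Finset.range p, η ^ i = 0 := by
      have h := geom_sum_mul η p
      rw [hηp, sub_self] at h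
      exact (mul_eq_zero.1 h).resolve_right (sub_ne_zero.2 hη1)
    have hpsum : (p : L) = -∑ i ∈ Finset.range p, (η ^ i - 1) := by
      rw [Finset.sum_sub_distrib, hgeom, Finset.sum_const, Finset.card_range, nsmul_eq_mul, mul_one,
        zero_sub, neg_neg]
    have hlt : A.valuation (p : L) < 1 := by
      rw [hpsum, Valuation.map_neg]
      exact Valuation.map_sum_lt _ one_ne_zero fun i _ => hvk η hηA hv1 i
    rw [hvp] at hlt
    exact lt_irrefl _ hlt

/-- Inertia at `q ≠ p` fixes every `p`-power root of unity of `ℚ̄`. -/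
theorem apply_eq_of_mem_inertia {p q : ℕ} (hp : p.Prime) (hq : q.Prime) (hqp : q ≠ p)
    (A : ValuationSubring Qbar) (hA : A.LiesOverPrime q) {g : Γℚ}
    (hg : g ∈ A.inertiaSubgroupIn ℚ) {n : ℕ} {ζ : Qbar} (hζ : ζ ^ (p ^ n) = 1) : g ζ = ζ := by
  have hN : p ^ n ≠ 0 := pow_ne_zero _ hp.ne_zero
  have hζ0 : ζ ≠ 0 := by
    rintro rfl
    rw [zero_pow hN] at hζ
    exact zero_ne_one hζ
  have hinv : ζ⁻¹ = ζ ^ (p ^ n - 1) := by
    rw [eq_comm, ← mul_right_inj' hζ0, mul_inv_cancel₀ hζ0, ← pow_succ',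
      Nat.sub_add_cancel (Nat.one_le_iff_ne_zero.2 hN), hζ]
  have hζA : ζ ∈ A := by
    rcases A.mem_or_inv_mem ζ with h | h
    · exact h
    · have : ζ = (ζ⁻¹) ^ (p ^ n - 1) := by rw [inv_pow, ← hinv, inv_inv]
      rw [this]; exact pow_mem h _
  have hζinvA : ζ⁻¹ ∈ A := by rw [hinv]; exact pow_mem hζA _
  set η : Qbar := g ζ * ζ⁻¹ with hη
  have hηp : η ^ (p ^ n) = 1 := by
    rw [hη, mul_pow, ← map_pow, hζ, map_one, inv_pow, hζ, inv_one, mul_one]
  have hgζA : g ζ ∈ A := (Fermat.Agent.S05.Inertia.apply_mem_iff hg _).2 hζA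
  have hηA : η ∈ A := mul_mem hgζA hζinvA
  have hv1 : A.valuation (η - 1) < 1 := by
    have h1 : η - 1 = (g ζ - ζ) * ζ⁻¹ := by rw [hη, sub_mul, mul_inv_cancel₀ hζ0]
    rw [h1, map_mul]
    have h2 : A.valuation (g ζ - ζ) < 1 :=
      Fermat.Agent.S05.Inertia.valuation_sub_lt_one hg ((A.valuation_le_one_iff _).2 hζA)
    have h3 : A.valuation ζ⁻¹ ≤ 1 := (A.valuation_le_one_iff _).2 hζinvA
    calc A.valuation (g ζ - ζ) * A.valuation ζ⁻¹
        ≤ A.valuation (g ζ - ζ) * 1 := mul_le_mul_right h3 _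
      _ < 1 := by rw [mul_one]; exact h2
  have hvp : A.valuation (p : Qbar) = 1 :=
    Fermat.Agent.S05.Inertia.valuation_prime_eq_one hq hA hp hqp
  have hη1 : η = 1 := eq_one_of_pow_eq_one A hvp n η hηA hηp hv1
  have := congrArg (· * ζ) hη1
  simpa [hη, mul_assoc, inv_mul_cancel₀ hζ0] using this

/-- `σ` fixes `ℚ(ζ)` iff it fixes `ζ`. -/
theorem mem_fixingSubgroup_adjoin_simple {σ : Γℚ} {ζ : Qbar} :
    σ ∈ (IntermediateField.adjoin ℚ {ζ}).fixingSubgroup ↔ σ ζ = ζ := by
  rw [IntermediateField.mem_fixingSubgroup_iff]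
  constructor
  · intro h
    exact h ζ (IntermediateField.mem_adjoin_simple_self ℚ ζ)
  · intro hfix x hx
    induction hx using IntermediateField.adjoin_induction with
    | mem y hy => rw [Set.mem_singleton_iff.1 hy]; exact hfix
    | algebraMap r => exact σ.commutes r
    | add x y _ _ hx hy => show σ (x + y) = x + y; rw [map_add]; exact congrArg₂ _ hx hy
    | inv x _ hx => show σ x⁻¹ = x⁻¹; rw [map_inv₀]; exact congrArg _ hx
    | mul x y _ _ hx hy => show σ (x * y) = x * y; rw [map_mul]; exact congrArg₂ _ hx hy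

/-- `ℚ(ζ)` is unramified outside any `S ∋ p`, for `ζ` a `p`-power root of unity. -/
theorem isUnramifiedOutside_adjoin {p : ℕ} [Fact p.Prime] {S : Finset Nat.Primes}
    (hpS : pPrime p ∈ S) {n : ℕ} {ζ : Qbar} (hζ : ζ ^ (p ^ n) = 1) :
    (IntermediateField.adjoin ℚ {ζ}).IsUnramifiedOutside S := by
  have hp : p.Prime := Fact.out
  have hint : IsIntegral ℚ ζ := (AlgebraicClosure.isAlgebraic ℚ).isIntegral.isIntegral ζ
  refine ⟨IntermediateField.adjoin.finiteDimensional hint, fun q hq A hA σ hσ => ?_⟩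
  have hqp : (q : ℕ) ≠ p := by
    intro h
    apply hq
    have : q = pPrime p := Subtype.ext h
    rw [this]; exact hpS
  rw [mem_fixingSubgroup_adjoin_simple]
  exact apply_eq_of_mem_inertia hp q.2 hqp A hA hσ hζ

end Fermat.Agent.TW.NZLoc94.Unram
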