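/-
Programme TW (S56), sub-programme C2 (helper44), brick C2-NZ (helper94).

`NZLoc94.Main`: **`p^∞` divides the local degree of `ℚ_S` at `q`** (for `p ∈ S`), and the resulting
(NZ) "norms from deep levels vanish" for the local Galois group `Γ_q` with the level basis
`levelLocS q S` (pull-back of the levels of `G_S`).

* `exists_not_fixed` : no finite extension `F/ℚ` has a decomposition group at `q` fixing all
  `p`-power roots of unity (local input: `LocalBound.exists_bound_primitiveRoot`).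
* `exists_dvd_relIndex` : for `F` unramified outside `S ∋ p` there is `F' ⊇ F` unramified outside
  `S` with `p ∣ [D_q(F) : D_q(F')]`, `D_q(F) = (localGaloisToGlobal q)⁻¹(Gal(ℚ̄/F))`.
* `exists_dvd_relIndex_levelLocS` : the same in terms of `(levelLocS q S).sets`.
* `normZero_levelLocS` : `P20Fund44.NormZero ρ ℱ` for every `p`-torsion module `M` on which some
  level acts trivially, and every cofinal `ℱ ⊆ (levelLocS q S).sets`.
-/
import Mathlib
import Fermat.Agent.PT.GLUE.Objects21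
import Fermat.Agent.TW.P20Fund44
import Fermat.Agent.TW.NZLoc94.Group
import Fermat.Agent.TW.NZLoc94.Unram
import Fermat.Agent.TW.NZLoc94.LocalBound

set_option autoImplicit false

namespace Fermat.Agent.TW.NZLoc94.Main

open ExtCitation IntermediateField
open Fermat.Agent.PT.BR.LocInj13 Fermat.Agent.PT.GLUE.Objects21
open Fermat.Agent.PT.PRO.GlobalDuality20

local notation "Qbar" => AlgebraicClosure ℚ
local notation "Γ" => (AlgebraicClosure ℚ ≃ₐ[ℚ] AlgebraicClosure ℚ)

local instance isAlgClosureQbar94 : IsAlgClosure ℚ Qbar := ⟨inferInstance, inferInstance⟩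
local instance isGaloisQbar94 : IsGalois ℚ Qbar := IsAlgClosure.isGalois ℚ Qbar

variable (q : ℕ) [Fact q.Prime] (p : ℕ) [Fact p.Prime]

local notation "Γq" => (PadicAlgCl q ≃ₐ[ℚ_[q]] PadicAlgCl q)

local instance isAlgClosurePadic94 : IsAlgClosure ℚ_[q] (PadicAlgCl q) :=
  ⟨inferInstance, inferInstance⟩
local instance isGaloisPadic94 : IsGalois ℚ_[q] (PadicAlgCl q) :=
  IsAlgClosure.isGalois ℚ_[q] (PadicAlgCl q)

/-! ### No decomposition group of a finite level fixes all `p`-power roots of unity -/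

/-- For a finite extension `F/ℚ` there are a `p`-power root of unity `ζ ∈ ℚ̄` and an element of the
decomposition group of `F` at `q` (image of `Γ_q`) moving `ζ`. -/
theorem exists_not_fixed (F : IntermediateField ℚ Qbar) [FiniteDimensional ℚ F] :
    ∃ (n : ℕ) (ζ : Qbar), ζ ^ (p ^ n) = 1 ∧ ∃ s : Γq,
      localGaloisToGlobal q s ∈ F.fixingSubgroup ∧ localGaloisToGlobal q s ζ ≠ ζ := by
  have hp : p.Prime := Fact.out
  obtain ⟨N, hN⟩ := LocalBound.exists_bound_primitiveRoot q (↥(localField q F)) hp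
  have : NeZero ((p : ℕ) : ℚ) := ⟨by exact_mod_cast hp.ne_zero⟩
  obtain ⟨ζ, hζ⟩ := HasEnoughRootsOfUnity.exists_primitiveRoot Qbar (p ^ (N + 1))
  refine ⟨N + 1, ζ, hζ.pow_eq_one, ?_⟩
  by_contra hcon
  push Not at hcon
  have hζ' : IsPrimitiveRoot (padicEmbedding q ζ) (p ^ (N + 1)) :=
    hζ.map_of_injective (padicEmbedding q).injective
  have hmem : padicEmbedding q ζ ∈ localField q F := by
    rw [← InfiniteGalois.fixedField_fixingSubgroup (localField q F),
      IntermediateField.mem_fixedField_iff]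
    intro s hs
    have h1 := hcon s ((mem_fixingSubgroup_localField_iff q F s).1 hs)
    rw [← padicEmbedding_localGaloisToGlobal, h1]
  have hprim : IsPrimitiveRoot (⟨padicEmbedding q ζ, hmem⟩ : ↥(localField q F)) (p ^ (N + 1)) :=
    IsPrimitiveRoot.coe_submonoidClass_iff.1 hζ'
  have := hN (N + 1) _ hprim
  omega

/-! ### The index -/

/-- **`p` divides a relative index of decomposition groups in the cyclotomic tower**: explicit
form, the new level is `F(ζ₁, ζ₂)` for two `p`-power roots of unity. -/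
theorem exists_dvd_relIndex_aux (F : IntermediateField ℚ Qbar) [FiniteDimensional ℚ F] :
    ∃ (ζ₁ ζ₂ : Qbar) (n₁ n₂ : ℕ), ζ₁ ^ (p ^ n₁) = 1 ∧ ζ₂ ^ (p ^ n₂) = 1 ∧
      p ∣ ((F ⊔ IntermediateField.adjoin ℚ {ζ₁} ⊔
          IntermediateField.adjoin ℚ {ζ₂}).fixingSubgroup.comap (localGaloisToGlobal q)).relIndex
        (F.fixingSubgroup.comap (localGaloisToGlobal q)) := by
  classical
  have hp : p.Prime := Fact.out
  set r := localGaloisToGlobal q with hr
  -- adjoin `ζ_p`
  have : NeZero ((p : ℕ) : ℚ) := ⟨by exact_mod_cast hp.ne_zero⟩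
  obtain ⟨ζp, hζp⟩ := HasEnoughRootsOfUnity.exists_primitiveRoot Qbar p
  have hζpp : ζp ^ (p ^ 1) = 1 := by rw [pow_one]; exact hζp.pow_eq_one
  set F1 : IntermediateField ℚ Qbar := F ⊔ IntermediateField.adjoin ℚ {ζp} with hF1
  have : FiniteDimensional ℚ (IntermediateField.adjoin ℚ {ζp}) :=
    IntermediateField.adjoin.finiteDimensional
      ((AlgebraicClosure.isAlgebraic ℚ).isIntegral.isIntegral ζp)
  have : FiniteDimensional ℚ F1 := IntermediateField.finiteDimensional_sup F _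
  have hF1fix : ∀ s : Γq, r s ∈ F1.fixingSubgroup → r s ζp = ζp := by
    intro s hs
    rw [hF1, IntermediateField.fixingSubgroup_sup] at hs
    exact Unram.mem_fixingSubgroup_adjoin_simple.1 hs.2
  -- the property "the decomposition group of `F1` fixes all `p^n`-th roots of unity"
  let Q : ℕ → Prop := fun n => ∀ s : Γq, r s ∈ F1.fixingSubgroup →
    ∀ ζ : Qbar, ζ ^ (p ^ n) = 1 → r s ζ = ζ
  have hQ1 : Q 1 := by
    intro s hs ζ hζ
    rw [pow_one] at hζ
    obtain ⟨i, -, rfl⟩ := hζp.eq_pow_of_pow_eq_one hζ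
    rw [map_pow, hF1fix s hs]
  have hQ0 : Q 0 := by
    intro s hs ζ hζ
    rw [pow_zero, pow_one] at hζ
    rw [hζ, map_one]
  have hex : ∃ n, ¬ Q n := by
    obtain ⟨n, ζ, hζ, s, hs, hne⟩ := exists_not_fixed q p F1
    exact ⟨n, fun h => hne (h s hs ζ hζ)⟩
  -- minimal counterexample
  set n0 := Nat.find hex with hn0
  have hn0spec : ¬ Q n0 := Nat.find_spec hex
  have hn0ge : 2 ≤ n0 := by
    by_contra hlt
    push Not at hlt
    interval_cases n0
    · exact hn0spec hQ0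
    · exact hn0spec hQ1
  obtain ⟨m, hm⟩ : ∃ m, n0 = m + 1 := ⟨n0 - 1, by omega⟩
  have hm1 : 1 ≤ m := by omega
  have hQm : Q m := by
    by_contra h
    have := Nat.find_min' hex h
    omega
  rw [hm] at hn0spec
  simp only [Q] at hn0spec
  push Not at hn0spec
  obtain ⟨s0, hs0, ζ, hζ, hs0ζ⟩ := hn0spec
  have hζ0 : ζ ≠ 0 := by
    rintro rfl
    rw [zero_pow (pow_ne_zero _ hp.ne_zero)] at hζ
    exact zero_ne_one hζ
  -- the new level
  set F2 : IntermediateField ℚ Qbar := F1 ⊔ IntermediateField.adjoin ℚ {ζ} with hF2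
  have hFF1 : F ≤ F1 := le_sup_left
  have hF1F2 : F1 ≤ F2 := le_sup_left
  refine ⟨ζp, ζ, 1, m + 1, hζpp, hζ, ?_⟩
  set U : Subgroup Γq := F.fixingSubgroup.comap r with hU
  set U1 : Subgroup Γq := F1.fixingSubgroup.comap r with hU1
  set V : Subgroup Γq := F2.fixingSubgroup.comap r with hV
  have hVU1 : V ≤ U1 := Subgroup.comap_mono (IntermediateField.fixingSubgroup_antitone hF1F2)
  have hU1U : U1 ≤ U := Subgroup.comap_mono (IntermediateField.fixingSubgroup_antitone hFF1)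
  -- `ζ^p` is fixed by `U1`
  have hζp_fix : ∀ s : Γq, r s ∈ F1.fixingSubgroup → r s (ζ ^ p) = ζ ^ p := by
    intro s hs
    apply hQm s hs
    rw [← pow_mul, ← pow_succ']
    exact hζ
  -- the Kummer-type character
  let g : Γq → Qbar := fun s => r s ζ * ζ⁻¹
  have hg0 : ∀ s, g s ≠ 0 := fun s =>
    mul_ne_zero ((map_ne_zero (r s)).2 hζ0) (inv_ne_zero hζ0)
  have hgp : ∀ s : Γq, r s ∈ F1.fixingSubgroup → g s ^ p = 1 := by
    intro s hs
    show (r s ζ * ζ⁻¹) ^ p = 1
    rw [mul_pow, ← map_pow, hζp_fix s hs, inv_pow, mul_inv_cancel₀ (pow_ne_zero _ hζ0)]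
  have hgmul : ∀ s t : Γq, r s ∈ F1.fixingSubgroup → r t ∈ F1.fixingSubgroup →
      g (s * t) = g s * g t := by
    intro s t hs ht
    have h1 : r t ζ = g t * ζ := by
      show r t ζ = r t ζ * ζ⁻¹ * ζ
      rw [mul_assoc, inv_mul_cancel₀ hζ0, mul_one]
    have h2 : r s (g t) = g t := by
      apply hQ1 s hs
      rw [pow_one]
      exact hgp t ht
    show r (s * t) ζ * ζ⁻¹ = g s * g t
    rw [map_mul, AlgEquiv.mul_apply, h1, map_mul, h2]
    show g t * r s ζ * ζ⁻¹ = r s ζ * ζ⁻¹ * g t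
    ring
  let φ : ↥U1 →* Qbarˣ := MonoidHom.mk' (fun s => Units.mk0 (g s.1) (hg0 s.1)) (by
    intro s t
    apply Units.ext
    show g ((s * t : ↥U1) : Γq) = g s.1 * g t.1
    rw [Subgroup.coe_mul]
    exact hgmul s.1 t.1 s.2 t.2)
  have hφker : φ.ker = V.subgroupOf U1 := by
    ext s
    rw [MonoidHom.mem_ker, Subgroup.mem_subgroupOf]
    show Units.mk0 (g s.1) (hg0 s.1) = 1 ↔ r s.1 ∈ F2.fixingSubgroup
    rw [hF2, IntermediateField.fixingSubgroup_sup, Subgroup.mem_inf,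
      Unram.mem_fixingSubgroup_adjoin_simple]
    constructor
    · intro h
      have h1 : g s.1 = 1 := by
        have := congrArg Units.val h
        simpa using this
      refine ⟨s.2, ?_⟩
      have h2 : r s.1 ζ * ζ⁻¹ = 1 := h1
      have := congrArg (· * ζ) h2
      simpa [mul_assoc, inv_mul_cancel₀ hζ0] using this
    · rintro ⟨-, h⟩
      apply Units.ext
      show r s.1 ζ * ζ⁻¹ = 1
      rw [h, mul_inv_cancel₀ hζ0]
  -- `φ s0` has order `p`
  let s0' : ↥U1 := ⟨s0, hs0⟩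
  have hφs0 : φ s0' ≠ 1 := by
    intro h
    have h1 : g s0 = 1 := by
      have : ((φ s0' : Qbarˣ) : Qbar) = ((1 : Qbarˣ) : Qbar) := congrArg Units.val h
      exact this
    apply hs0ζ
    have h2 : r s0 ζ * ζ⁻¹ = 1 := h1
    have := congrArg (· * ζ) h2
    simpa [mul_assoc, inv_mul_cancel₀ hζ0] using this
  have hφs0p : φ s0' ^ p = 1 := by
    apply Units.ext
    show g s0 ^ p = 1
    exact hgp s0 hs0
  have hord : orderOf (φ s0') = p := orderOf_eq_prime hφs0p hφs0
  have hdvd1 : p ∣ Nat.card φ.range := by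
    have h1 : orderOf (⟨φ s0', ⟨s0', rfl⟩⟩ : φ.range) = p := by
      rw [← hord, ← Subgroup.orderOf_coe]
    rw [← h1]
    exact orderOf_dvd_natCard _
  have hdvd2 : p ∣ V.relIndex U1 := by
    rw [Subgroup.relIndex, ← hφker, Subgroup.index_ker]
    exact hdvd1
  rw [← Subgroup.relIndex_mul_relIndex V U1 U hVU1 hU1U]
  exact Dvd.dvd.mul_right hdvd2 _

/-- The stabiliser of a root of unity is a normal subgroup of `Gal(ℚ̄/ℚ)`. -/
theorem normal_fixingSubgroup_adjoin {ζ : Qbar} {N : ℕ} (hN : N ≠ 0) (hζ : ζ ^ N = 1) :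
    (IntermediateField.adjoin ℚ {ζ}).fixingSubgroup.Normal := by
  have hfin : IsOfFinOrder ζ := isOfFinOrder_iff_pow_eq_one.2 ⟨N, Nat.pos_of_ne_zero hN, hζ⟩
  have hd : NeZero (orderOf ζ) := ⟨hfin.orderOf_pos.ne'⟩
  have hprim : IsPrimitiveRoot ζ (orderOf ζ) := IsPrimitiveRoot.orderOf ζ
  refine ⟨fun τ hτ σ => ?_⟩
  rw [Unram.mem_fixingSubgroup_adjoin_simple] at hτ ⊢
  have h1 : (σ⁻¹ ζ) ^ orderOf ζ = 1 := by rw [← map_pow, pow_orderOf_eq_one, map_one]
  obtain ⟨i, -, hi⟩ := hprim.eq_pow_of_pow_eq_one h1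
  have h2 : τ (σ⁻¹ ζ) = σ⁻¹ ζ := by rw [← hi, map_pow, hτ]
  show (σ * τ * σ⁻¹) ζ = ζ
  rw [AlgEquiv.mul_apply, AlgEquiv.mul_apply, h2]
  show (σ * σ⁻¹) ζ = ζ
  rw [mul_inv_cancel, AlgEquiv.one_apply]

/-- **`p` divides a relative index of decomposition groups in the cyclotomic tower**: for `F`
unramified outside `S ∋ p` there is `F' ⊇ F`, unramified outside `S`, with
`p ∣ [D_q(F) : D_q(F')]`; moreover `D_q(F')` is normal in `Γ_q` if `D_q(F)` is. -/
theorem exists_dvd_relIndex {S : Finset Nat.Primes} (hpS : pPrime p ∈ S)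
    (F : IntermediateField ℚ Qbar) (hF : F.IsUnramifiedOutside S) :
    ∃ F' : IntermediateField ℚ Qbar, F'.IsUnramifiedOutside S ∧ F ≤ F' ∧
      ((F.fixingSubgroup.comap (localGaloisToGlobal q)).Normal →
        (F'.fixingSubgroup.comap (localGaloisToGlobal q)).Normal) ∧
      p ∣ (F'.fixingSubgroup.comap (localGaloisToGlobal q)).relIndex
        (F.fixingSubgroup.comap (localGaloisToGlobal q)) := by
  have hp : p.Prime := Fact.out
  have := hF.1
  obtain ⟨ζ₁, ζ₂, n₁, n₂, h₁, h₂, hdvd⟩ := exists_dvd_relIndex_aux q p F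
  refine ⟨_, (hF.sup (Unram.isUnramifiedOutside_adjoin hpS h₁)).sup
    (Unram.isUnramifiedOutside_adjoin hpS h₂), le_sup_left.trans le_sup_left, ?_, hdvd⟩
  intro hU
  rw [IntermediateField.fixingSubgroup_sup, IntermediateField.fixingSubgroup_sup,
    Subgroup.comap_inf, Subgroup.comap_inf]
  have hN₁ := normal_fixingSubgroup_adjoin (pow_ne_zero n₁ hp.ne_zero) h₁
  have hN₂ := normal_fixingSubgroup_adjoin (pow_ne_zero n₂ hp.ne_zero) h₂
  have hc₁ := hN₁.comap (localGaloisToGlobal q)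
  have hc₂ := hN₂.comap (localGaloisToGlobal q)
  exact inferInstance

/-- The same, in terms of the level basis `levelLocS q S`. -/
theorem exists_dvd_relIndex_levelLocS {S : Finset Nat.Primes} (hpS : pPrime p ∈ S) :
    ∀ U ∈ (levelLocS q S).sets, ∃ V ∈ (levelLocS q S).sets,
      V ≤ U ∧ (U.Normal → V.Normal) ∧ p ∣ V.relIndex U := by
  rintro _ ⟨_, ⟨F, hF, rfl⟩, rfl⟩
  obtain ⟨F', hF', hle, hnorm, hdvd⟩ := exists_dvd_relIndex q p hpS F hF
  exact ⟨_, ⟨_, ⟨F', hF', rfl⟩, rfl⟩,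
    Subgroup.comap_mono (IntermediateField.fixingSubgroup_antitone hle), hnorm, hdvd⟩

/-! ### (NZ) -/

/-- **(NZ) for `(Γ_q, levelLocS q S)`**: norms from deep levels vanish on a `p`-torsion module on
which some level acts trivially, for any cofinal family `ℱ` of levels. -/
theorem normZero_levelLocS {S : Finset Nat.Primes} (hpS : pPrime p ∈ S)
    {k : Type*} [CommRing k] {M : Type*} [AddCommGroup M] [Module k M]
    (ρ : Representation k Γq M) (hpM : ∀ m : M, (p : k) • m = 0)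
    (htriv : ∃ U₀ ∈ (levelLocS q S).sets, ∀ s ∈ U₀, ∀ m : M, ρ s m = m)
    {ℱ : Set (Subgroup Γq)} (hsub : ℱ ⊆ (levelLocS q S).sets)
    (hcof : ∀ U ∈ (levelLocS q S).sets, ∃ V ∈ ℱ, V ≤ U) :
    P20Fund44.NormZero ρ ℱ := by
  obtain ⟨U₀, hU₀, htriv⟩ := htriv
  intro U hU
  obtain ⟨W, hW, hWle⟩ := (levelLocS q S).isBasis.directed U (hsub hU) U₀ hU₀
  obtain ⟨V, hV, hVW, -, hdvd⟩ := exists_dvd_relIndex_levelLocS q p hpS W hW
  obtain ⟨V', hV', hV'V⟩ := hcof V hV
  have hV'W : V' ≤ W := hV'V.trans hVW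
  have hdvd' : p ∣ V'.relIndex W := by
    rw [← Subgroup.relIndex_mul_relIndex V' V W hV'V hVW]
    exact Dvd.dvd.mul_left hdvd _
  have : V'.FiniteIndex := (levelLocS q S).isBasis.finiteIndex V' (hsub hV')
  refine ⟨V', hV', hV'W.trans (hWle.trans inf_le_left), fun a _ => ?_⟩
  exact Group.nrm_eq_zero_of_dvd_relIndex ρ hpM hV'W hdvd'
    (fun s hs => htriv s ((hWle.trans inf_le_right) hs) a)

end Fermat.Agent.TW.NZLoc94.Main
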