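/-
Programme TW (S56), sub-programme C2 (helper44), brick C2-NZ (helper94).

`NZLoc94.DegInf`: the arithmetic input `LocDegInf` of the tail of Poitou–Tate, in helper44's exact
shape: `p^∞` divides the order of `Γ_q` along the level basis `levelLocS q S` (`p ∈ S`).
-/
import Mathlib
import Fermat.Agent.TW.P20LocS44
import Fermat.Agent.TW.NZLoc94.Main

set_option autoImplicit false

namespace Fermat.Agent.TW.NZLoc94.DegInf

open ExtCitation
open Fermat.Agent.PT.GLUE.Objects21

/-- **`LocDegInf`**: every normal level `U` of `Γ_q` coming from `G_S` contains a normal level `V`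
coming from `G_S` with `p ∣ [U : V]` (cyclotomic `ℤ_p`-tower, `p ∈ S`). -/
theorem locDegInf (p : ℕ) [Fact p.Prime] (S : Finset Nat.Primes) (hpS : pPrime p ∈ S)
    (q : ℕ) [Fact q.Prime] :
    Fermat.Agent.TW.P20LocS44.DegInf (levelLocS q S).sets p := by
  intro U hU hUn
  obtain ⟨V, hV, hVU, hn, hdvd⟩ := Main.exists_dvd_relIndex_levelLocS q p hpS U hU
  exact ⟨V, hV, hn hUn, hVU, hdvd⟩

end Fermat.Agent.TW.NZLoc94.DegInf
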